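import Fermat.Agent.S14.Defs

/-!
# S14, package U2a: basic facts on the cyclotomic unit `c2`

`c2 p z = ∏_{a=1}^{p-1} (1 + z^a)^(a^(p-3))`.

* `map_c2`: `c2` commutes with ring homomorphisms.
* `isUnit_one_add_of_pow_eq_one`: `1 + ξ` is a unit for a nontrivial root of unity of odd order.
* `isUnit_c2_toInteger`, `coe_c2_toInteger`: the integral model `c2 p hζ.toInteger : 𝓞 K`.
* `c2_isUnit`: `c2 p ζ` is (the image of) a unit of `𝓞 K`.
* `c2_ne_zero`.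
* `c2_eigen`: `σ (c2 p ζ) = (c2 p ζ)^(n^2) * β^p` when `σ ζ = ζ^n`.
-/

set_option autoImplicit false

open scoped NumberField nonZeroDivisors
open IsDedekindDomain Fermat.Agent.S14.Defs

namespace Fermat.Agent.S14.C2.Basic

/-- `c2` commutes with ring homomorphisms. -/
theorem map_c2 (p : ℕ) {R S : Type*} [CommRing R] [CommRing S] (f : R →+* S) (z : R) :
    f (c2 p z) = c2 p (f z) := by
  simp [c2, map_prod]

/-- For a root of unity `ξ ≠ 1` of odd order `p` in a domain, `1 + ξ` is a unit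
(with inverse `∑_{i ≤ (p-1)/2} ξ^(2i)`). -/
theorem isUnit_one_add_of_pow_eq_one {R : Type*} [CommRing R] [IsDomain R] {p : ℕ} (hodd : Odd p)
    {ξ : R} (hξ : ξ ^ p = 1) (hξ1 : ξ ≠ 1) : IsUnit (1 + ξ) := by
  obtain ⟨k, hk⟩ := hodd
  have h1 : (1 - ξ ^ 2) * ∑ i ∈ Finset.range (k + 1), (ξ ^ 2) ^ i = 1 - (ξ ^ 2) ^ (k + 1) :=
    mul_neg_geom_sum _ _
  have h2 : (ξ ^ 2) ^ (k + 1) = ξ := by
    rw [← pow_mul, show 2 * (k + 1) = p + 1 by omega, pow_succ, hξ, one_mul]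
  rw [h2] at h1
  have h3 : (1 - ξ) * ((1 + ξ) * ∑ i ∈ Finset.range (k + 1), (ξ ^ 2) ^ i - 1) = 0 := by
    have : (1 - ξ) * ((1 + ξ) * ∑ i ∈ Finset.range (k + 1), (ξ ^ 2) ^ i - 1)
        = (1 - ξ ^ 2) * ∑ i ∈ Finset.range (k + 1), (ξ ^ 2) ^ i - (1 - ξ) := by ring
    rw [this, h1, sub_self]
  have h4 : (1 - ξ) ≠ 0 := fun h => hξ1 (sub_eq_zero.mp h).symm
  have h5 := (mul_eq_zero.mp h3).resolve_left h4
  exact IsUnit.of_mul_eq_one _ (sub_eq_zero.mp h5)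

/-- In a domain, for a primitive `p`-th root of unity `z` with `p` an odd prime, each factor
`1 + z^a` (`1 ≤ a < p`) of `c2` is a unit. -/
theorem isUnit_one_add_pow {R : Type*} [CommRing R] [IsDomain R] {p : ℕ} (hpr : p.Prime)
    (hp : 3 ≤ p) {z : R} (hz : IsPrimitiveRoot z p) {a : ℕ} (ha : a ∈ Finset.Ico 1 p) :
    IsUnit (1 + z ^ a) := by
  have hodd : Odd p := hpr.odd_of_ne_two (by omega)
  rw [Finset.mem_Ico] at ha
  refine isUnit_one_add_of_pow_eq_one hodd ?_ ?_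
  · rw [← pow_mul, mul_comm, pow_mul, hz.pow_eq_one, one_pow]
  · exact hz.pow_ne_one_of_pos_of_lt (by omega) ha.2

/-- In a domain, `c2 p z` is a unit for a primitive `p`-th root of unity `z`, `p` an odd prime. -/
theorem isUnit_c2 {R : Type*} [CommRing R] [IsDomain R] {p : ℕ} (hpr : p.Prime)
    (hp : 3 ≤ p) {z : R} (hz : IsPrimitiveRoot z p) : IsUnit (c2 p z) := by
  unfold c2
  exact IsUnit.prod_iff.mpr fun a ha => IsUnit.pow _ (isUnit_one_add_pow hpr hp hz ha)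

section NumberField

variable {p : ℕ} [Fact p.Prime] {K : Type*} [Field K] {ζ : K}

/-- The integral model of `c2`: its image in `K` is `c2 p ζ`. -/
theorem coe_c2_toInteger (hζ : IsPrimitiveRoot ζ p) :
    haveI : NeZero p := ⟨(Fact.out : p.Prime).ne_zero⟩
    ((c2 p hζ.toInteger : 𝓞 K) : K) = c2 p ζ :=
  haveI : NeZero p := ⟨(Fact.out : p.Prime).ne_zero⟩
  map_c2 p (algebraMap (𝓞 K) K) hζ.toInteger

/-- The integral model of `c2` is a unit of `𝓞 K`. -/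
theorem isUnit_c2_toInteger (hp : 3 ≤ p) (hζ : IsPrimitiveRoot ζ p) :
    haveI : NeZero p := ⟨(Fact.out : p.Prime).ne_zero⟩
    IsUnit (c2 p hζ.toInteger : 𝓞 K) :=
  haveI : NeZero p := ⟨(Fact.out : p.Prime).ne_zero⟩
  isUnit_c2 Fact.out hp hζ.toInteger_isPrimitiveRoot

/-- `c2 p ζ` is a unit of `𝓞 K`. -/
theorem c2_isUnit (hp : 3 ≤ p) (hζ : IsPrimitiveRoot ζ p) :
    ∃ u : (𝓞 K)ˣ, ((u : 𝓞 K) : K) = c2 p ζ := by
  obtain ⟨u, hu⟩ := isUnit_c2_toInteger hp hζ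
  exact ⟨u, by rw [hu]; exact coe_c2_toInteger hζ⟩

/-- Each factor `1 + ζ^b`, `1 ≤ b < p`, is nonzero. -/
theorem one_add_pow_ne_zero (hp : 3 ≤ p) (hζ : IsPrimitiveRoot ζ p) {b : ℕ}
    (hb : b ∈ Finset.Ico 1 p) : (1 + ζ ^ b : K) ≠ 0 :=
  (isUnit_one_add_pow Fact.out hp hζ hb).ne_zero

/-- `c2 p ζ ≠ 0`. -/
theorem c2_ne_zero (hp : 3 ≤ p) (hζ : IsPrimitiveRoot ζ p) : c2 p ζ ≠ 0 :=
  (isUnit_c2 Fact.out hp hζ).ne_zero

end NumberField

/-- Exponent bookkeeping: if `m ≡ m' (mod p)` as natural numbers then `x^m = x^m' * y^p`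
for some `y` (namely `y = x^k`, `k ∈ ℤ`), in a field, for `x ≠ 0`. -/
theorem pow_eq_pow_mul_pow_of_natCast_eq {F : Type*} [Field F] {x : F} (hx : x ≠ 0) {p m m' : ℕ}
    (h : (m : ZMod p) = (m' : ZMod p)) : ∃ y : F, x ^ m = x ^ m' * y ^ p := by
  have h' : (p : ℤ) ∣ (m : ℤ) - (m' : ℤ) := by
    have : ((m : ℤ) : ZMod p) = ((m' : ℤ) : ZMod p) := by simpa using h
    exact (ZMod.intCast_eq_intCast_iff_dvd_sub _ _ _).mp this.symm
  obtain ⟨k, hk⟩ := h'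
  refine ⟨x ^ k, ?_⟩
  have : (m : ℤ) = (m' : ℤ) + k * (p : ℤ) := by linarith
  calc x ^ m = x ^ (m : ℤ) := (zpow_natCast x m).symm
    _ = x ^ ((m' : ℤ) + k * (p : ℤ)) := by rw [this]
    _ = x ^ (m' : ℤ) * x ^ (k * (p : ℤ)) := zpow_add₀ hx _ _
    _ = x ^ m' * (x ^ k) ^ p := by rw [zpow_natCast, zpow_mul, zpow_natCast]

/-- `c2 p ζ` is an `ω²`-eigenvector modulo `p`-th powers (any odd prime `p`, any field
automorphism-like map: stated for `K ≃ₐ[ℚ] K`). -/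
theorem c2_eigen {p : ℕ} [Fact p.Prime] {K : Type*} [Field K] [NumberField K] {ζ : K}
    (hp : 3 ≤ p) (hζ : IsPrimitiveRoot ζ p) : EigenElt p ζ (c2 p ζ) := by
  have hpr : p.Prime := Fact.out
  intro σ n hn
  -- `p ∤ n`
  have hpn : ¬ p ∣ n := by
    rintro ⟨k, rfl⟩
    rw [pow_mul, hζ.pow_eq_one, one_pow] at hn
    have h1 : ζ = 1 := by
      have : σ ζ = σ 1 := by rw [hn, map_one]
      exact σ.injective this
    exact hζ.ne_one hpr.one_lt h1
  have hn0 : (n : ZMod p) ≠ 0 := by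
    rwa [Ne, ZMod.natCast_eq_zero_iff]
  -- the reindexing map `a ↦ n * a % p` on `Ico 1 p`
  have hmaps : ∀ a ∈ Finset.Ico 1 p, n * a % p ∈ Finset.Ico 1 p := by
    intro a ha
    rw [Finset.mem_Ico] at ha ⊢
    refine ⟨?_, Nat.mod_lt _ hpr.pos⟩
    rw [Nat.one_le_iff_ne_zero, Ne, ← Nat.dvd_iff_mod_eq_zero]
    intro h
    rcases (Nat.Prime.dvd_mul hpr).mp h with h | h
    · exact hpn h
    · exact absurd (Nat.le_of_dvd (by omega) h) (by omega)
  have hinj : Set.InjOn (fun a => n * a % p) (Finset.Ico 1 p : Set ℕ) := by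
    intro a ha b hb hab
    simp only [Finset.coe_Ico, Set.mem_Ico] at ha hb
    have h1 : ((n * a : ℕ) : ZMod p) = ((n * b : ℕ) : ZMod p) := by
      rw [ZMod.natCast_eq_natCast_iff']
      exact hab
    have h2 : (a : ZMod p) = (b : ZMod p) := by
      push_cast at h1
      exact mul_left_cancel₀ hn0 h1
    rw [ZMod.natCast_eq_natCast_iff'] at h2
    rwa [Nat.mod_eq_of_lt ha.2, Nat.mod_eq_of_lt hb.2] at h2
  have hsurj : Set.SurjOn (fun a => n * a % p) (Finset.Ico 1 p : Set ℕ)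
      (Finset.Ico 1 p : Set ℕ) := by
    have himg : (Finset.Ico 1 p).image (fun a => n * a % p) = Finset.Ico 1 p := by
      apply Finset.eq_of_subset_of_card_le
      · intro b hb
        obtain ⟨a, ha, rfl⟩ := Finset.mem_image.mp hb
        exact hmaps a ha
      · rw [Finset.card_image_of_injOn hinj]
    intro b hb
    have hb' : b ∈ (Finset.Ico 1 p).image (fun a => n * a % p) := by rw [himg]; exact hb
    obtain ⟨a, ha, rfl⟩ := Finset.mem_image.mp hb'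
    exact ⟨a, ha, rfl⟩
  -- the exponent congruence `a^(p-3) ≡ (n a)^(p-3) n^2 (mod p)`
  have hexp : ∀ a : ℕ,
      ((a ^ (p - 3) : ℕ) : ZMod p) = (((n * a % p) ^ (p - 3) * n ^ 2 : ℕ) : ZMod p) := by
    intro a
    have h1 : ((n * a % p : ℕ) : ZMod p) = (n : ZMod p) * (a : ZMod p) := by
      rw [ZMod.natCast_mod]; push_cast; rfl
    push_cast
    rw [h1, mul_pow, mul_comm ((n : ZMod p) ^ (p - 3)), mul_assoc, ← pow_add,
      show p - 3 + 2 = p - 1 by omega, ZMod.pow_card_sub_one_eq_one hn0, mul_one]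
  choose! y hy using fun a (ha : a ∈ Finset.Ico 1 p) =>
    pow_eq_pow_mul_pow_of_natCast_eq (one_add_pow_ne_zero hp hζ (hmaps a ha)) (hexp a)
  refine ⟨∏ a ∈ Finset.Ico 1 p, y a, ?_⟩
  have hσ : σ (c2 p ζ) = ∏ a ∈ Finset.Ico 1 p, (1 + ζ ^ (n * a % p)) ^ (a ^ (p - 3)) := by
    unfold c2
    rw [map_prod]
    refine Finset.prod_congr rfl fun a _ => ?_
    rw [map_pow, map_add, map_one, map_pow, hn, ← pow_mul]
    rw [pow_eq_pow_mod (n * a) hζ.pow_eq_one]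
  have hc : c2 p ζ
      = ∏ a ∈ Finset.Ico 1 p, (1 + ζ ^ (n * a % p)) ^ ((n * a % p) ^ (p - 3)) := by
    unfold c2
    exact (Finset.prod_nbij (fun a => n * a % p) hmaps hinj hsurj (fun _ _ => rfl)).symm
  rw [hσ, hc, ← Finset.prod_pow, ← Finset.prod_pow, ← Finset.prod_mul_distrib]
  refine Finset.prod_congr rfl fun a ha => ?_
  rw [hy a ha, ← pow_mul]

end Fermat.Agent.S14.C2.Basic
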