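import Fermat.Agent.S14.Defs
import Fermat.Agent.S14.Loc

set_option autoImplicit false

/-!
# S14, task U2b: `c2` is not locally a `p`-th power at `(1 - ζ)`

`c2_not_localPow`: for `p ≥ 5` the cyclotomic unit `c2 p ζ` is not, up to `p`-th powers,
congruent to `1` modulo `(1 - ζ) ^ 3`.  The proof uses the homomorphism
`Loc.ell2 : (𝓞 K)ˣ →* Multiplicative (ZMod p)` (second logarithmic coefficient modulo `π ^ 3`),
which kills every unit that is locally a `p`-th power and takes the value `-1/8` on `c2`.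
-/

open scoped NumberField nonZeroDivisors
open IsDedekindDomain Fermat.Agent.S14.Defs

namespace Fermat.Agent.S14.C2.Local

variable {p : ℕ} [Fact p.Prime] {K : Type} [Field K] [NumberField K]
  [IsCyclotomicExtension {p} ℚ K] {ζ : K}

/-- The prime `(ζ - 1)` of `𝓞 K`, as a height-one prime. -/
noncomputable def vpi (hζ : IsPrimitiveRoot ζ p) : HeightOneSpectrum (𝓞 K) where
  asIdeal := Ideal.span {hζ.toInteger - 1}
  isPrime := (Ideal.span_singleton_prime hζ.zeta_sub_one_prime'.ne_zero).mpr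
    hζ.zeta_sub_one_prime'
  ne_bot := by
    rw [Ne, Ideal.span_singleton_eq_bot]
    exact hζ.zeta_sub_one_prime'.ne_zero

lemma vpi_asIdeal (hζ : IsPrimitiveRoot ζ p) :
    (vpi hζ).asIdeal = Ideal.span {hζ.toInteger - 1} := rfl

lemma prime_mem_vpi (hζ : IsPrimitiveRoot ζ p) : ((p : ℕ) : 𝓞 K) ∈ (vpi hζ).asIdeal := by
  rw [vpi_asIdeal, Ideal.mem_span_singleton]
  exact hζ.toInteger_sub_one_dvd_prime'

/-- The unit `Loc.c2` of `𝓞 K` is the element `Defs.c2 p ζ` of `K`. -/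
lemma coe_loc_c2 (hp5 : 5 ≤ p) (hζ : IsPrimitiveRoot ζ p) :
    (((Loc.c2 hζ hp5 : (𝓞 K)ˣ) : 𝓞 K) : K) = c2 p ζ := by
  rw [Loc.coe_c2, c2]
  simp [map_prod]

/-- A unit `u` of `𝓞 K` with `u * x ^ p ≡ 1` modulo `π ^ 3` for some `x : K` is killed by
`Loc.ell2`. -/
theorem ell2_eq_one_of_valuation_le (hp5 : 5 ≤ p) (hζ : IsPrimitiveRoot ζ p) (u : (𝓞 K)ˣ)
    (x : K) (hx : (vpi hζ).valuation K (((u : 𝓞 K) : K) * x ^ p - 1) ≤ WithZero.exp (-3 : ℤ)) :
    Loc.ell2 hζ hp5 u = 1 := by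
  have hpr : p.Prime := Fact.out
  set v := vpi hζ with hv
  -- `v (u * x ^ p) = 1`
  have hlt : v.valuation K (((u : 𝓞 K) : K) * x ^ p - 1) < v.valuation K 1 := by
    rw [map_one]
    refine lt_of_le_of_lt hx ?_
    rw [← WithZero.exp_zero, WithZero.exp_lt_exp]
    norm_num
  have h1 : v.valuation K (((u : 𝓞 K) : K) * x ^ p) = 1 := by
    have := Valuation.map_add_eq_of_lt_left (v.valuation K) hlt
    rwa [add_sub_cancel, map_one] at this
  have hu1 : v.valuation K ((u : 𝓞 K) : K) = 1 := by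
    have h2 : v.valuation K (algebraMap (𝓞 K) K (u : 𝓞 K)) = 1 := by
      rw [HeightOneSpectrum.valuation_eq_one_iff_notMem]
      intro hmem
      exact v.isPrime.ne_top (Ideal.eq_top_of_isUnit_mem _ hmem u.isUnit)
    exact h2
  have hx1 : v.valuation K x = 1 := by
    rw [map_mul, hu1, one_mul, map_pow] at h1
    exact (pow_eq_one_iff_of_nonneg zero_le hpr.ne_zero).mp h1
  obtain ⟨n, ⟨d, hdmem⟩, hnd⟩ := v.exists_primeCompl_mul_eq_of_integer x hx1.le
  replace hnd : x * algebraMap (𝓞 K) K d = algebraMap (𝓞 K) K n := hnd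
  have hd1 : v.valuation K (algebraMap (𝓞 K) K d) = 1 :=
    (HeightOneSpectrum.valuation_eq_one_iff_notMem v).mpr hdmem
  have hn1 : v.valuation K (algebraMap (𝓞 K) K n) = 1 := by
    rw [← hnd, map_mul, hx1, hd1, one_mul]
  have hn : n ∉ v.asIdeal := (HeightOneSpectrum.valuation_eq_one_iff_notMem v).mp hn1
  -- the integral congruence
  have hE : algebraMap (𝓞 K) K ((u : 𝓞 K) * n ^ p - d ^ p) =
      (((u : 𝓞 K) : K) * x ^ p - 1) * algebraMap (𝓞 K) K d ^ p := by
    rw [map_sub, map_mul, map_pow, map_pow, ← hnd]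
    ring
  have hvI : v.asIdeal = Ideal.span {hζ.toInteger - 1} := rfl
  have hval : v.intValuation ((u : 𝓞 K) * n ^ p - d ^ p) ≤
      WithZero.exp (-((3 : ℕ) : ℤ)) := by
    have h3 : v.valuation K (algebraMap (𝓞 K) K ((u : 𝓞 K) * n ^ p - d ^ p)) =
        v.intValuation ((u : 𝓞 K) * n ^ p - d ^ p) :=
      HeightOneSpectrum.valuation_of_algebraMap (K := K) v _
    rw [← h3, hE, map_mul, map_pow, hd1, one_pow, mul_one]
    exact hx
  rw [HeightOneSpectrum.intValuation_le_pow_iff_mem, hvI, Ideal.span_singleton_pow,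
    Ideal.mem_span_singleton] at hval
  refine Loc.ell2_eq_one_of_dvd hζ hp5 u n d ?_ hval
  intro hdvd
  apply hn
  rw [hvI, Ideal.mem_span_singleton]
  exact hdvd

/-- `c2 p ζ` is not, up to `p`-th powers, congruent to `1` modulo `(1-ζ)^3`
(`c2 ≡ 2^m (1 - π²/8) mod π³`). -/
theorem c2_not_localPow (hp5 : 5 ≤ p) (hζ : IsPrimitiveRoot ζ p) : ¬ LocalPow p (c2 p ζ) := by
  intro h
  obtain ⟨x, hx⟩ := h (vpi hζ) (prime_mem_vpi hζ)
  rw [← coe_loc_c2 hp5 hζ] at hx
  exact Loc.ell2_c2_ne_one hζ hp5 (ell2_eq_one_of_valuation_le hp5 hζ _ x hx)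

end Fermat.Agent.S14.C2.Local
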